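import Fermat.Agent.Root.SummaryFermatCurve
import Mathlib.Data.Nat.Factorization.Root
import Mathlib.RingTheory.Coprime.Lemmas
import Mathlib.Tactic.LinearCombination
import Mathlib.Tactic.IntervalCases
import Mathlib.Tactic.Linarith

/-!
# The equation of Hurwitz

For coprime `m`, `n` the three terms of `x ^ m y ^ n + y ^ m z ^ n + z ^ m x ^ n = 0` are, after
removing their common factor, `± N`-th powers, `N = m² - m n + n²`.
-/

set_option autoImplicit false

noncomputable section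

namespace FA.Hurwitz

/-- A natural number whose exponents are divisible by `N` is an `N`-th power. -/
theorem exists_pow_of_dvd_factorization {N a : ℕ} (hN : N ≠ 0) (ha : a ≠ 0)
    (h : ∀ p, N ∣ a.factorization p) : ∃ r : ℕ, r ^ N = a := by
  refine ⟨Nat.floorRoot N a, Nat.eq_of_factorization_eq
    (pow_ne_zero _ (Nat.floorRoot_ne_zero.2 ⟨hN, ha⟩)) ha fun p => ?_⟩
  rw [Nat.factorization_pow, Nat.factorization_floorRoot, Finsupp.smul_apply,
    Finsupp.floorDiv_apply, smul_eq_mul, Nat.floorDiv_eq_div, Nat.mul_div_cancel' (h p)]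

/-- The exponent of `p` in an integer. -/
def ord (p : ℕ) (u : ℤ) : ℤ := u.natAbs.factorization p

theorem ord_mul {p : ℕ} {u v : ℤ} (hu : u ≠ 0) (hv : v ≠ 0) :
    ord p (u * v) = ord p u + ord p v := by
  simp [ord, Int.natAbs_mul, Nat.factorization_mul (Int.natAbs_ne_zero.2 hu)
    (Int.natAbs_ne_zero.2 hv)]

theorem ord_pow {p k : ℕ} {u : ℤ} : ord p (u ^ k) = k * ord p u := by
  simp [ord, Int.natAbs_pow, Nat.factorization_pow]

theorem ord_eq_zero {p : ℕ} {u : ℤ} (h : ¬ (p : ℤ) ∣ u) : ord p u = 0 := by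
  simp [ord, Nat.factorization_eq_zero_of_not_dvd fun h' => h (Int.natCast_dvd.2 h')]

/-- `N = m² - m n + n²` is odd for coprime `m`, `n`. -/
theorem odd_norm {m n N : ℕ} (hmn : Nat.Coprime m n)
    (hN : (N : ℤ) = m ^ 2 - m * n + n ^ 2) : Odd N := by
  have h2 : ¬ (Even m ∧ Even n) := fun ⟨h1, h2⟩ =>
    Nat.not_coprime_of_dvd_of_dvd one_lt_two h1.two_dvd h2.two_dvd hmn
  rw [← Int.odd_coe_nat, hN]
  simp only [parity_simps, Int.even_coe_nat, ne_eq, OfNat.ofNat_ne_zero, not_false_eq_true]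
  rcases Nat.even_or_odd m with a | a <;> rcases Nat.even_or_odd n with b | b <;>
    simp_all [← Nat.not_even_iff_odd]

/-- The exponent of every prime in the third reduced term is divisible by `N`. -/
theorem dvd_ord_third {m n N : ℕ} (hmn : Nat.Coprime m n)
    (hN : (N : ℤ) = m ^ 2 - m * n + n ^ 2) {x y z G P Q R : ℤ} (hx : x ≠ 0) (hy : y ≠ 0)
    (hz : z ≠ 0) (hP : x ^ m * y ^ n = G * P) (hQ : y ^ m * z ^ n = G * Q)
    (hR : z ^ m * x ^ n = G * R) (hcop : IsCoprime P Q) (hsum : P + Q + R = 0) (p : ℕ) :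
    (N : ℤ) ∣ ord p R := by
  by_cases hp : p.Prime
  swap
  · simp [ord, Nat.factorization_eq_zero_of_not_prime _ hp]
  by_cases hpR : (p : ℤ) ∣ R
  swap
  · rw [ord_eq_zero hpR]; exact dvd_zero _
  have hp' := Nat.prime_iff_prime_int.1 hp
  have hnP : ¬ (p : ℤ) ∣ P := fun h => hp'.not_isUnit (hcop.isUnit_of_dvd' h (by
    rw [show Q = -R - P by linear_combination hsum]
    exact dvd_sub (dvd_neg.2 hpR) h))
  have hnQ : ¬ (p : ℤ) ∣ Q := fun h => hp'.not_isUnit (hcop.isUnit_of_dvd' (by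
    rw [show P = -R - Q by linear_combination hsum]
    exact dvd_sub (dvd_neg.2 hpR) h) h)
  have hG : G ≠ 0 := fun h => mul_ne_zero (pow_ne_zero m hx)
    (pow_ne_zero n hy) (by rw [hP, h, zero_mul])
  have hP0 : P ≠ 0 := fun h => hnP (h ▸ dvd_zero _)
  have hQ0 : Q ≠ 0 := fun h => hnQ (h ▸ dvd_zero _)
  have hR0 : R ≠ 0 := fun h => mul_ne_zero (pow_ne_zero m hz) (pow_ne_zero n hx)
    (by rw [hR, h, mul_zero])
  have eP := congrArg (ord p) hP
  have eQ := congrArg (ord p) hQ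
  have eR := congrArg (ord p) hR
  rw [ord_mul (pow_ne_zero _ hx) (pow_ne_zero _ hy), ord_pow, ord_pow, ord_mul hG hP0,
    ord_eq_zero hnP] at eP
  rw [ord_mul (pow_ne_zero _ hy) (pow_ne_zero _ hz), ord_pow, ord_pow, ord_mul hG hQ0,
    ord_eq_zero hnQ] at eQ
  rw [ord_mul (pow_ne_zero _ hz) (pow_ne_zero _ hx), ord_pow, ord_pow, ord_mul hG hR0] at eR
  have hcN : IsCoprime (N : ℤ) (n : ℤ) := by
    rw [hN, show (m : ℤ) ^ 2 - m * n + n ^ 2 = m ^ 2 + n * (n - m) by ring]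
    exact ((Nat.isCoprime_iff_coprime.2 hmn).pow_left).add_mul_left_left _
  refine hcN.dvd_of_dvd_mul_left ⟨ord p x - ord p y, ?_⟩
  linear_combination (m : ℤ) * eQ - n * eR - ((m : ℤ) - n) * eP
    - (ord p x - ord p y) * hN

/-- An integer with exponents divisible by an odd `N` is an `N`-th power. -/
theorem exists_pow_int {N : ℕ} (hN : Odd N) {u : ℤ} (hu : u ≠ 0)
    (h : ∀ p, (N : ℤ) ∣ ord p u) : ∃ r : ℤ, r ^ N = u := by
  obtain ⟨r, hr⟩ := exists_pow_of_dvd_factorization hN.pos.ne' (Int.natAbs_ne_zero.2 hu)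
    fun p => Int.natCast_dvd_natCast.1 (h p)
  rcases Int.natAbs_eq u with h' | h'
  · exact ⟨r, by rw [h', ← hr]; push_cast; ring⟩
  · exact ⟨-r, by rw [h', ← hr, hN.neg_pow]; push_cast; ring⟩

/-- **Hurwitz's theorem**, integers, coprime exponents. -/
theorem hurwitz_int {m n N : ℕ} (hmn : Nat.Coprime m n)
    (hN : (N : ℤ) = m ^ 2 - m * n + n ^ 2) (h3 : 3 ≤ N) {x y z : ℤ} (hx : x ≠ 0) (hy : y ≠ 0)
    (hz : z ≠ 0) : x ^ m * y ^ n + y ^ m * z ^ n + z ^ m * x ^ n ≠ 0 := fun h => by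
  have hP0 : x ^ m * y ^ n ≠ 0 := mul_ne_zero (pow_ne_zero _ hx) (pow_ne_zero _ hy)
  obtain ⟨P, Q, hg, hP, hQ⟩ := Int.exists_gcd_one
    (Int.gcd_pos_of_ne_zero_left (y ^ m * z ^ n) hP0)
  set G : ℤ := (Int.gcd (x ^ m * y ^ n) (y ^ m * z ^ n) : ℤ)
  replace hP : x ^ m * y ^ n = G * P := hP.trans (mul_comm _ _)
  replace hQ : y ^ m * z ^ n = G * Q := hQ.trans (mul_comm _ _)
  set R : ℤ := -(P + Q)
  have hR : z ^ m * x ^ n = G * R := by linear_combination h - hP - hQ
  have hPQ : IsCoprime P Q := Int.isCoprime_iff_gcd_eq_one.2 hg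
  have hsum : P + Q + R = 0 := by simp [R]
  have hQR : IsCoprime Q R := by
    rw [show R = -P + Q * (-1) by simp [R]; ring]
    exact hPQ.symm.neg_right.add_mul_left_right _
  have hRP : IsCoprime R P := by
    rw [show R = -Q + P * (-1) by simp [R]]
    exact hPQ.symm.neg_left.add_mul_left_left _
  have ho := odd_norm hmn hN
  have hne : ∀ {a b c : ℤ}, a ≠ 0 → a = b * c → c ≠ 0 := fun ha he hc =>
    ha (by rw [he, hc, mul_zero])
  obtain ⟨a, ha⟩ := exists_pow_int ho (hne hP0 hP)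
    (dvd_ord_third hmn hN hy hz hx hQ hR hP hQR (by linear_combination hsum))
  obtain ⟨b, hb⟩ := exists_pow_int ho
    (hne (mul_ne_zero (pow_ne_zero _ hy) (pow_ne_zero _ hz)) hQ)
    (dvd_ord_third hmn hN hz hx hy hR hP hQ hRP (by linear_combination hsum))
  obtain ⟨c, hc⟩ := exists_pow_int ho
    (hne (mul_ne_zero (pow_ne_zero _ hz) (pow_ne_zero _ hx)) hR)
    (dvd_ord_third hmn hN hx hy hz hP hQ hR hPQ hsum)
  have h0 := FA.Summary.fermat_int_mul_eq_zero h3 (x := a) (y := b) (z := -c)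
    (by rw [ho.neg_pow]; linear_combination ha + hb + hc + hsum)
  have hN0 : N ≠ 0 := by omega
  rcases mul_eq_zero.1 h0 with h0 | h0
  · rcases mul_eq_zero.1 h0 with rfl | rfl
    · exact hne hP0 hP (by rw [← ha, zero_pow hN0])
    · exact hne (mul_ne_zero (pow_ne_zero _ hy) (pow_ne_zero _ hz)) hQ
        (by rw [← hb, zero_pow hN0])
  · exact hne (mul_ne_zero (pow_ne_zero _ hz) (pow_ne_zero _ hx)) hR
      (by rw [← hc, neg_eq_zero.1 h0, zero_pow hN0])

/-- Hurwitz's theorem, rationals, coprime exponents. -/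
theorem hurwitz_rat {m n N : ℕ} (hmn : Nat.Coprime m n)
    (hN : (N : ℤ) = m ^ 2 - m * n + n ^ 2) (h3 : 3 ≤ N) {x y z : ℚ} (hx : x ≠ 0) (hy : y ≠ 0)
    (hz : z ≠ 0) : x ^ m * y ^ n + y ^ m * z ^ n + z ^ m * x ^ n ≠ 0 := fun h => by
  set D : ℚ := (x.den : ℚ) * y.den * z.den
  refine hurwitz_int hmn hN h3 (x := x.num * y.den * z.den) (y := y.num * z.den * x.den)
    (z := z.num * x.den * y.den) ?_ ?_ ?_ ?_
  any_goals simp [hx, hy, hz, Rat.den_ne_zero]
  have e : ∀ u : ℚ, (u.num : ℚ) = u * u.den := fun u => (Rat.mul_den_eq_num u).symm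
  apply (Int.cast_injective (α := ℚ))
  push_cast
  rw [e x, e y, e z, show x * x.den * y.den * z.den = D * x by simp only [D]; ring,
    show y * y.den * z.den * x.den = D * y by simp only [D]; ring,
    show z * z.den * x.den * y.den = D * z by simp only [D]; ring]
  simp only [mul_pow]
  linear_combination D ^ m * D ^ n * h

end FA.Hurwitz

end
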