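import Fermat.Agent.Hurwitz.Basic
import Mathlib.Tactic.FieldSimp
import Mathlib.Algebra.Order.Ring.Rat

/-!
# Rational points on `|x ^ a (1 - x) ^ b| = |y| ^ n`

Writing `x = u / v` in lowest terms, each of `|u|`, `|v - u|`, `v` is a power with exponent the
common part of `n / (a, n)`, `n / (b, n)` and `n / (a + b, n)`.
-/

set_option autoImplicit false

noncomputable section

namespace FA.Hurwitz

theorem div_gcd_dvd {n a t : ℕ} (hn : n ≠ 0) (h : n ∣ a * t) : n / Nat.gcd a n ∣ t := by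
  have h' : n ∣ Nat.gcd a n * t := by
    rw [← Nat.gcd_mul_right]
    exact Nat.dvd_gcd h (dvd_mul_right n t)
  exact (Nat.div_dvd_iff_dvd_mul (Nat.gcd_dvd_right a n)
    (Nat.gcd_pos_of_pos_right a (Nat.pos_of_ne_zero hn))).2 h'

/-- If `|u| ^ a * rest` and `rest'` differ by `n`-th powers, the exponents of `u` are divisible by
`n / (a, n)`. -/
theorem dvd_ord_of_eq {n a e : ℕ} (hn : n ≠ 0) (he : e ∣ n / Nat.gcd a n) {u R S s r : ℤ}
    (hu : u ≠ 0) (hR : R ≠ 0) (hS : S ≠ 0) (hs : s ≠ 0) (hr : r ≠ 0) (hcR : IsCoprime u R)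
    (hcS : IsCoprime u S)
    (h : (u ^ a * R * s ^ n).natAbs = (r ^ n * S).natAbs) (p : ℕ) : (e : ℤ) ∣ ord p u := by
  by_cases hp : p.Prime
  swap
  · simp [ord, Nat.factorization_eq_zero_of_not_prime _ hp]
  by_cases hpu : (p : ℤ) ∣ u
  swap
  · rw [ord_eq_zero hpu]; exact dvd_zero _
  have hp' := Nat.prime_iff_prime_int.1 hp
  have h0 : ∀ {T : ℤ}, IsCoprime u T → ord p T = 0 := fun hc =>
    ord_eq_zero fun h' => hp'.not_isUnit (hc.isUnit_of_dvd' hpu h')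
  have heq : ord p (u ^ a * R * s ^ n) = ord p (r ^ n * S) := by rw [ord, ord, h]
  rw [ord_mul (mul_ne_zero (pow_ne_zero _ hu) hR) (pow_ne_zero _ hs),
    ord_mul (pow_ne_zero _ hu) hR, ord_mul (pow_ne_zero _ hr) hS, ord_pow, ord_pow, ord_pow,
    h0 hcR, h0 hcS] at heq
  have hd : (n : ℤ) ∣ a * ord p u := ⟨ord p r - ord p s, by linear_combination heq⟩
  rw [show ord p u = ((u.natAbs.factorization p : ℕ) : ℤ) from rfl] at hd ⊢
  exact Int.natCast_dvd_natCast.2 (he.trans (div_gcd_dvd hn (by exact_mod_cast hd)))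

/-- **The covers**: only `x = 0` and `x = 1`. -/
theorem cover_points {n a b e : ℕ} (he : 3 ≤ e) (ha : e ∣ n / Nat.gcd a n)
    (hb : e ∣ n / Nat.gcd b n) (hab : e ∣ n / Nat.gcd (a + b) n) (hn : n ≠ 0) {x y : ℚ}
    (h : |x ^ a * (1 - x) ^ b| = |y| ^ n) : x = 0 ∨ x = 1 := by
  by_contra hx
  rw [not_or] at hx
  obtain ⟨u, hu⟩ : ∃ u, x.num = u := ⟨_, rfl⟩
  obtain ⟨v, hv⟩ : ∃ v : ℤ, (x.den : ℤ) = v := ⟨_, rfl⟩
  have hcuv : IsCoprime u v := by
    rw [← hu, ← hv, Int.isCoprime_iff_gcd_eq_one, Int.gcd, Int.natAbs_natCast]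
    exact x.reduced
  have hv0 : 0 < v := by rw [← hv]; exact_mod_cast x.den_pos
  have hvq : (v : ℚ) ≠ 0 := Int.cast_ne_zero.2 hv0.ne'
  have hxv : x * v = u := by rw [← hu, ← hv]; exact_mod_cast Rat.mul_den_eq_num x
  have hu0 : u ≠ 0 := hu ▸ Rat.num_ne_zero.2 hx.1
  obtain ⟨w, hw⟩ : ∃ w, w = v - u := ⟨_, rfl⟩
  have hwq : (1 - x) * v = w := by rw [hw]; push_cast; linear_combination -hxv
  have hw0 : w ≠ 0 := fun e0 => hx.2 (by
    rw [e0, Int.cast_zero] at hwq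
    exact (sub_eq_zero.1 ((mul_eq_zero.1 hwq).resolve_right hvq)).symm)
  have hy0 : y ≠ 0 := fun e0 => by
    rw [e0, abs_zero, zero_pow hn, abs_eq_zero] at h
    exact mul_ne_zero (pow_ne_zero a hx.1) (pow_ne_zero b (sub_ne_zero.2 (Ne.symm hx.2))) h
  obtain ⟨r, hr⟩ : ∃ r, y.num = r := ⟨_, rfl⟩
  obtain ⟨s, hs⟩ : ∃ s : ℤ, (y.den : ℤ) = s := ⟨_, rfl⟩
  have hys : y * s = r := by rw [← hr, ← hs]; exact_mod_cast Rat.mul_den_eq_num y
  have hs0 : s ≠ 0 := by rw [← hs]; exact_mod_cast y.den_ne_zero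
  have hr0 : r ≠ 0 := hr ▸ Rat.num_ne_zero.2 hy0
  -- the equation in integers
  have key : |u ^ a * w ^ b * s ^ n| = |r ^ n * v ^ (a + b)| := by
    rw [← (Int.cast_injective (α := ℚ)).eq_iff]
    push_cast
    rw [← hxv, ← hwq, ← hys]
    simp only [mul_pow, abs_mul, abs_pow, pow_add] at h ⊢
    linear_combination |(v : ℚ)| ^ a * |(v : ℚ)| ^ b * |(s : ℚ)| ^ n * h
  have key' : (u ^ a * w ^ b * s ^ n).natAbs = (r ^ n * v ^ (a + b)).natAbs := by
    rw [Int.abs_eq_natAbs, Int.abs_eq_natAbs] at key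
    exact_mod_cast key
  have hwv : IsCoprime w v := by
    rw [hw, show v - u = -u + v * 1 by ring]
    exact hcuv.neg_left.add_mul_left_left 1
  have huw : IsCoprime u w := by
    rw [hw, show v - u = v + u * (-1) by ring]
    exact hcuv.add_mul_left_right _
  obtain ⟨A, hA⟩ := exists_pow_of_dvd_factorization (N := e) (by omega)
    (Int.natAbs_ne_zero.2 hu0) fun p => Int.natCast_dvd_natCast.1
    (dvd_ord_of_eq hn ha hu0 (pow_ne_zero b hw0) (pow_ne_zero (a + b) hv0.ne') hs0 hr0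
      huw.pow_right hcuv.pow_right key' p)
  obtain ⟨B, hB⟩ := exists_pow_of_dvd_factorization (N := e) (by omega)
    (Int.natAbs_ne_zero.2 hw0) fun p => Int.natCast_dvd_natCast.1
    (dvd_ord_of_eq hn hb hw0 (pow_ne_zero a hu0) (pow_ne_zero (a + b) hv0.ne') hs0 hr0
      huw.symm.pow_right hwv.pow_right (by rw [mul_comm (w ^ b)]; exact key') p)
  obtain ⟨C, hC⟩ := exists_pow_of_dvd_factorization (N := e) (by omega)
    (Int.natAbs_ne_zero.2 hv0.ne') fun p => Int.natCast_dvd_natCast.1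
    (dvd_ord_of_eq hn hab hv0.ne' (R := 1) (S := u ^ a * w ^ b) one_ne_zero
      (mul_ne_zero (pow_ne_zero _ hu0) (pow_ne_zero _ hw0)) hr0 hs0 isCoprime_one_right
      (hcuv.symm.pow_right.mul_right hwv.symm.pow_right)
      (by rw [mul_one, mul_comm (s ^ n), mul_comm (v ^ (a + b))]; exact key'.symm) p)
  have hne : ∀ {z : ℤ} {Z : ℕ}, z ≠ 0 → Z ^ e = z.natAbs → (Z : ℤ) ≠ 0 := fun hz hZ e0 => by
    rw [Int.natCast_eq_zero.1 e0, zero_pow (by omega)] at hZ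
    exact hz (Int.natAbs_eq_zero.1 hZ.symm)
  have habs : ∀ {z : ℤ} {Z : ℕ}, Z ^ e = z.natAbs → (Z : ℤ) ^ e = |z| := fun hZ => by
    rw [Int.abs_eq_natAbs, ← hZ]; push_cast; rfl
  have flt : ∀ {i j k : ℤ}, i ≠ 0 → j ≠ 0 → k ≠ 0 → i ^ e + j ^ e ≠ k ^ e := fun hi hj hk h' =>
    mul_ne_zero (mul_ne_zero hi hj) hk (FA.Summary.fermat_int_mul_eq_zero he h')
  have nA := hne hu0 hA
  have nB := hne hw0 hB
  have nC := hne hv0.ne' hC
  have eA := habs hA
  have eB := habs hB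
  have eC := habs hC
  rw [abs_of_pos hv0] at eC
  rcases abs_choice u with eu | eu <;> rcases abs_choice w with ew | ew <;>
    rw [eu] at eA <;> rw [ew] at eB
  · exact flt nA nB nC (by rw [eA, eB, eC, hw]; ring)
  · exact flt nC nB nA (by rw [eA, eB, eC, hw]; ring)
  · exact flt nA nC nB (by rw [eA, eB, eC, hw]; ring)
  · have := abs_nonneg u
    have := abs_nonneg w
    omega

end FA.Hurwitz

end
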