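import Fermat.Agent.Eisenstein.LevelOne
import Fermat.Agent.Root.SummaryModularValues

/-!
# The values of `E_k` at `i` and `ρ` are rational multiples of powers of `E₄`, `E₆`

The normal form of a level one form with rational coefficients has rational coefficients; at the
elliptic points only one monomial in `E₄` and `E₆` survives.
-/

set_option autoImplicit false
set_option linter.style.haveILetI false

noncomputable section

open FA.Eis
open ModularForm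
open FA.ModField (rho)

namespace FA.Hurwitz

/-- The rational numbers in `ℂ`. -/
def ratSubring : Subring ℂ := (algebraMap ℚ ℂ).range

theorem mem_ratSubring {x : ℂ} : x ∈ ratSubring ↔ ∃ r : ℚ, (r : ℂ) = x := by
  simp [ratSubring, RingHom.mem_range]

theorem integralIn_E {k : ℕ} (hk : 3 ≤ k) (hk2 : Even k) :
    IntegralIn ratSubring (qe ⇑(ModularForm.E (k := k) hk)) := fun n => by
  rw [qe, EisensteinSeries.E_qExpansion_coeff hk hk2 n]
  split_ifs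
  · exact ratSubring.one_mem
  · exact mem_ratSubring.mpr
      ⟨-(2 * k / bernoulli k) * (ArithmeticFunction.sigma (k - 1) n : ℚ), by push_cast; rfl⟩

/-- `E_k` in normal form with rational coefficients. -/
theorem exists_normal_E {k a b c : ℕ} (hk : 3 ≤ k) (hk2 : Even k) (hab : a ≤ 2 ∧ b ≤ 1)
    (hshape : k = 4 * a + 6 * b + 12 * c) :
    ∃ lam : ℕ → ℚ, ∀ τ : UpperHalfPlane, (ModularForm.E (k := k) hk) τ =
      ∑ i ∈ Finset.range (c + 1), (lam i : ℂ) *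
        (E₄ τ ^ (a + 3 * (c - i)) * E₆ τ ^ b * ModularForm.discriminant τ ^ i) := by
  obtain ⟨lam, hlam, hA⟩ := exists_normal ratSubring hab c
    (k := (k : ℤ)) (by exact_mod_cast hshape) (IsLv.of_modularForm (ModularForm.E hk))
    (hasQ_modularForm _) (integralIn_E hk hk2)
  choose r hr using fun i => mem_ratSubring.mp (hlam i)
  refine ⟨r, fun τ => ?_⟩
  have hQ := HasQ.sum (h := 1) (Finset.range (c + 1)) fun i _ =>
    (((hasQ_E₄.pow one_pos (a + 3 * (c - i))).mul one_pos (hasQ_E₆.pow one_pos b)).mul one_pos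
      (hasQ_discriminant.pow one_pos i)).smul (lam i)
  have he := congrFun (HasQ.ext_fun (hasQ_modularForm (ModularForm.E hk))
    (by rw [hA]; simpa only [monoS] using hQ)) τ
  rw [he, Finset.sum_apply]
  refine Finset.sum_congr rfl fun i _ => ?_
  simp only [Pi.smul_apply, Pi.mul_apply, Pi.pow_apply, smul_eq_mul, hr, Δf]
  rfl

theorem E_I_rational {m : ℕ} (hk : 3 ≤ 4 * m) :
    ∃ r : ℚ, (ModularForm.E (k := 4 * m) hk) UpperHalfPlane.I =
      (r : ℂ) * E₄ UpperHalfPlane.I ^ m := by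
  obtain ⟨a, c, ha, hs⟩ : ∃ a c : ℕ, a ≤ 2 ∧ m = a + 3 * c := ⟨m % 3, m / 3, by omega, by omega⟩
  obtain ⟨lam, hlam⟩ := exists_normal_E hk ⟨2 * m, by omega⟩ (a := a) (b := 0) (c := c)
    ⟨ha, by omega⟩ (by omega)
  refine ⟨∑ i ∈ Finset.range (c + 1), lam i / 1728 ^ i, ?_⟩
  rw [hlam, Rat.cast_sum, Finset.sum_mul]
  refine Finset.sum_congr rfl fun i hi => ?_
  rw [Finset.mem_range] at hi
  rw [discriminant_eq_E₄_cube_sub_E₆_sq, FA.ModField.E6_I, hs, pow_zero, mul_one,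
    zero_pow two_ne_zero, sub_zero, div_pow, ← pow_mul, Rat.cast_div, Rat.cast_pow,
    Rat.cast_ofNat]
  rw [show a + 3 * c = a + 3 * (c - i) + 3 * i by omega, pow_add _ (a + 3 * (c - i)) (3 * i)]
  ring

theorem E_rho_rational {m : ℕ} (hk : 3 ≤ 6 * m) :
    ∃ r : ℚ, (ModularForm.E (k := 6 * m) hk) rho = (r : ℂ) * E₆ rho ^ m := by
  obtain ⟨b, c, hb, hs⟩ : ∃ b c : ℕ, b ≤ 1 ∧ m = b + 2 * c := ⟨m % 2, m / 2, by omega, by omega⟩
  obtain ⟨lam, hlam⟩ := exists_normal_E hk ⟨3 * m, by omega⟩ (a := 0) (b := b) (c := c)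
    ⟨by omega, hb⟩ (by omega)
  refine ⟨lam c * (-1 / 1728) ^ c, ?_⟩
  rw [hlam, Finset.sum_eq_single c (fun i hi hic => ?_)
    (fun h => absurd (Finset.self_mem_range_succ c) h)]
  · rw [discriminant_eq_E₄_cube_sub_E₆_sq, FA.ModField.E4_rho, hs, Nat.sub_self, pow_zero, one_mul,
      zero_pow three_ne_zero, zero_sub, pow_add (E₆ rho) b, pow_mul, mul_left_comm,
      Rat.cast_mul, Rat.cast_pow]
    push_cast
    rw [show -(E₆ rho ^ 2) / 1728 = (-1 / 1728) * E₆ rho ^ 2 by ring, mul_pow]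
    ring
  · rw [Finset.mem_range] at hi
    rw [FA.ModField.E4_rho, zero_pow (by omega), zero_mul, zero_mul, mul_zero]

/-- `2 ζ(2n)` is a rational multiple of `π ^ (2n)`. -/
theorem zeta_rational {n : ℕ} (hn : n ≠ 0) :
    ∃ r : ℚ, 2 * riemannZeta (2 * n : ℕ) = (r : ℂ) * (Real.pi : ℂ) ^ (2 * n) := by
  refine ⟨2 * (-1) ^ (n + 1) * 2 ^ (2 * n - 1) * bernoulli (2 * n) / (2 * n).factorial, ?_⟩
  rw [Nat.cast_mul, Nat.cast_ofNat, riemannZeta_two_mul_nat hn]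
  push_cast
  ring

open scoped Real in
/-- The sums over the Gaussian lattice. -/
theorem gaussian_sum_rational {m : ℕ} (hm : 1 ≤ m) :
    ∃ r : ℚ, ∑' p : ℤ × ℤ, (((p.1 : ℂ) + (p.2 : ℂ) * Complex.I) ^ (4 * m))⁻¹ =
      (r : ℂ) * ((Real.Gamma (1 / 4) ^ 2 / (2 * √(2 * π)) : ℝ) : ℂ) ^ (4 * m) := by
  obtain ⟨s, hs⟩ := E_I_rational (m := m) (by omega)
  obtain ⟨z, hz⟩ := zeta_rational (n := 2 * m) (by omega)
  refine ⟨z * s * 3 ^ m, ?_⟩
  have h : ∑' p : ℤ × ℤ, (((p.1 : ℂ) + (p.2 : ℂ) * Complex.I) ^ (4 * m))⁻¹ =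
      (FA.Mazur.Wp.latPair UpperHalfPlane.I).G (4 * m) := by
    rw [PeriodPair.G, ← (FA.Mazur.Wp.latPair _).latticeEquivProd.symm.toEquiv.tsum_eq,
      ← (Equiv.prodComm ℤ ℤ).tsum_eq]
    refine tsum_congr fun p => ?_
    rw [LinearEquiv.coe_toEquiv, PeriodPair.latticeEquiv_symm_apply]
    simp [FA.Mazur.Wp.latPair, UpperHalfPlane.coe_I]
    ring_nf
  rw [show 2 * (2 * m) = 4 * m by ring] at hz
  rw [h, FA.Mazur.Wp.G_latPair _ (by omega : 3 ≤ 4 * m), hs, hz, FA.ModularValues.E4_I,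
    pow_mul (π : ℂ), pow_mul _ 4 m, Rat.cast_mul, Rat.cast_mul, Rat.cast_pow]
  have e : (π : ℂ) ^ 4 * ((3 * Real.Gamma (1 / 4) ^ 8 / (64 * π ^ 6) : ℝ) : ℂ) =
      3 * ((Real.Gamma (1 / 4) ^ 2 / (2 * √(2 * π)) : ℝ) : ℂ) ^ 4 := by
    have key : π ^ 4 * (3 * Real.Gamma (1 / 4) ^ 8 / (64 * π ^ 6)) =
        3 * (Real.Gamma (1 / 4) ^ 2 / (2 * √(2 * π))) ^ 4 := by
      rw [div_pow, mul_pow, show √(2 * π) ^ 4 = (√(2 * π) ^ 2) ^ 2 by ring,
        Real.sq_sqrt (by positivity)]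
      field_simp
      ring
    have := congrArg (Complex.ofReal) key
    push_cast at this ⊢
    exact this
  calc _ = (z : ℂ) * s * ((π : ℂ) ^ 4 *
        ((3 * Real.Gamma (1 / 4) ^ 8 / (64 * π ^ 6) : ℝ) : ℂ)) ^ m := by ring
    _ = _ := by rw [e, mul_pow]; norm_num; ring

open scoped Real in
/-- The sums over the Eisenstein lattice. -/
theorem eisenstein_sum_rational {m : ℕ} (hm : 1 ≤ m) :
    ∃ r : ℚ, ∑' p : ℤ × ℤ, (((p.1 : ℂ) + (p.2 : ℂ) * rho) ^ (6 * m))⁻¹ =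
      (r : ℂ) *
        ((Real.Gamma (1 / 3) ^ 3 / ((2 : ℝ) ^ (4 / 3 : ℝ) * π) : ℝ) : ℂ) ^ (6 * m) := by
  obtain ⟨s, hs⟩ := E_rho_rational (m := m) (by omega)
  obtain ⟨z, hz⟩ := zeta_rational (n := 3 * m) (by omega)
  refine ⟨z * s * (27 / 2) ^ m, ?_⟩
  have h : ∑' p : ℤ × ℤ, (((p.1 : ℂ) + (p.2 : ℂ) * rho) ^ (6 * m))⁻¹ =
      (FA.Mazur.Wp.latPair rho).G (6 * m) := by
    rw [PeriodPair.G, ← (FA.Mazur.Wp.latPair _).latticeEquivProd.symm.toEquiv.tsum_eq,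
      ← (Equiv.prodComm ℤ ℤ).tsum_eq]
    refine tsum_congr fun p => ?_
    rw [LinearEquiv.coe_toEquiv, PeriodPair.latticeEquiv_symm_apply]
    simp [FA.Mazur.Wp.latPair]
    ring_nf
  rw [show 2 * (3 * m) = 6 * m by ring] at hz
  rw [h, FA.Mazur.Wp.G_latPair _ (by omega : 3 ≤ 6 * m), hs, hz, FA.ModularValues.E6_rho,
    pow_mul (π : ℂ), pow_mul _ 6 m, Rat.cast_mul, Rat.cast_mul, Rat.cast_pow]
  have e : (π : ℂ) ^ 6 * ((27 * Real.Gamma (1 / 3) ^ 18 / (512 * π ^ 12) : ℝ) : ℂ) =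
      27 / 2 * ((Real.Gamma (1 / 3) ^ 3 / ((2 : ℝ) ^ (4 / 3 : ℝ) * π) : ℝ) : ℂ) ^ 6 := by
    have key : π ^ 6 * (27 * Real.Gamma (1 / 3) ^ 18 / (512 * π ^ 12)) =
        27 / 2 * (Real.Gamma (1 / 3) ^ 3 / ((2 : ℝ) ^ (4 / 3 : ℝ) * π)) ^ 6 := by
      rw [div_pow, mul_pow, ← Real.rpow_natCast ((2 : ℝ) ^ (4 / 3 : ℝ)) 6,
        ← Real.rpow_mul zero_le_two]
      norm_num
      field_simp
      ring
    have := congrArg (Complex.ofReal) key
    push_cast at this ⊢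
    exact this
  calc _ = (z : ℂ) * s * ((π : ℂ) ^ 6 *
        ((27 * Real.Gamma (1 / 3) ^ 18 / (512 * π ^ 12) : ℝ) : ℂ)) ^ m := by ring
    _ = _ := by rw [e, mul_pow]; norm_num; ring

end FA.Hurwitz

end
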