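import Fermat.Agent.Root.SummaryRibetAll
import Fermat.Agent.Root.SummaryFermatCurve
import Fermat.Agent.CongruentNumber.One
import Mathlib.NumberTheory.PythagoreanTriples

/-!
# Perfect powers among the sides, areas and products of right triangles

The parametrisation of a primitive triangle turns each question into Fermat's equation or into
Ribet's equation with a power of two.
-/

set_option autoImplicit false

noncomputable section

namespace FA.RightTriangle

variable {n : ℕ} {u v y : ℤ}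

theorem coprime_two {a : ℤ} (ha : Odd a) : IsCoprime a 2 := by
  obtain ⟨j, rfl⟩ := ha
  exact ⟨1, -j, by ring⟩

/-- An even number prime to its cofactor in an `n`-th power, `n` odd. -/
theorem exists_two_mul_pow (ho : Odd n) {a b : ℤ} (hab : IsCoprime a b) (ha : Even a)
    (h : a * b = y ^ n) : ∃ c : ℤ, a = 2 ^ n * c ^ n := by
  obtain ⟨e, rfl⟩ := Int.eq_pow_of_mul_eq_pow_odd_left hab ho h
  obtain ⟨c, rfl⟩ := ((Int.even_pow' ho.pos.ne').1 ha).two_dvd
  exact ⟨c, mul_pow _ _ _⟩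

/-- `a ^ n + b ^ n = 2 ^ (n - 1) c ^ n`: only trivially. -/
theorem sum_ne_two_pow_mul {N : ℕ} (ho : Odd (N + 1)) (h3 : 3 ≤ N + 1) {a b c : ℤ}
    (hab : IsCoprime a b) (hb : b ≠ 0) (hc : c ≠ 0) :
    a ^ (N + 1) + b ^ (N + 1) ≠ 2 ^ N * c ^ (N + 1) := fun h => by
  have h5 : N = 2 ∨ 4 ≤ N := by
    have := Nat.odd_iff.1 ho
    omega
  rcases h5 with rfl | h4
  · rcases FA.Sylvester.no_solution (p := 2) (k := 2) (hp := ⟨Nat.prime_two⟩) (by norm_num)
      two_ne_zero (by norm_num) _ a b c rfl hab (by push_cast; linear_combination h) with e | ⟨e, -⟩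
    exacts [hc e, by norm_num at e]
  · have hodd : Odd a := Int.not_even_iff_odd.1 fun he => Int.prime_two.not_isUnit
      (hab.isUnit_of_dvd' he.two_dvd (Int.prime_two.dvd_of_dvd_pow (n := N + 1) (by
        rw [show b ^ (N + 1) = 2 ^ N * c ^ (N + 1) - a ^ (N + 1) by linear_combination h]
        exact dvd_sub ((dvd_pow_self 2 (show N ≠ 0 by omega)).mul_right _)
          (dvd_pow he.two_dvd (show N + 1 ≠ 0 by omega)))))
    have hac : IsCoprime a (2 ^ N * c ^ (N + 1)) := by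
      rw [← h, show a ^ (N + 1) + b ^ (N + 1) = b ^ (N + 1) + a * a ^ N by ring]
      exact hab.pow_right.add_mul_left_right _
    refine FA.Summary.ribetEquation_three_le h3 (α := N) (a := a) (b := -c) (c := b)
      (neg_ne_zero.2 hc) hb hodd ((IsCoprime.pow_right_iff (show 0 < N + 1 by omega)).1
        hac.of_mul_right_right).neg_right ?_ (by rw [ho.neg_pow]; linear_combination h)
    exact (((show (16 : ℤ) = 2 ^ 4 by norm_num) ▸ pow_dvd_pow 2 h4).mul_right _)

/-- The legs and the hypotenuse. -/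
theorem side_ne_pow (ho : Odd n) (h3 : 3 ≤ n) (hu : Even u) (hv : Odd v) (huv : IsCoprime u v)
    (hy : y ≠ 0) (h : 2 * u * v = y ^ n) {ε : ℤ} (hε : ε = 1 ∨ ε = -1) (t : ℤ) :
    v ^ 2 + ε * u ^ 2 ≠ t ^ n := fun ht => by
  have hc2 : IsCoprime (2 * u) v := (coprime_two hv).symm.mul_left huv
  obtain ⟨a, rfl⟩ := Int.eq_pow_of_mul_eq_pow_odd_left hc2.symm ho
    (show v * (2 * u) = y ^ n by rw [← h]; ring)
  obtain ⟨c, hc⟩ := exists_two_mul_pow ho hc2 (even_two_mul u) h
  obtain ⟨N, rfl⟩ : ∃ N, n = N + 1 := ⟨n - 1, by omega⟩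
  have hu' : u = 2 ^ N * c ^ (N + 1) := by
    rw [pow_succ' (2 : ℤ) N, mul_assoc] at hc
    exact mul_left_cancel₀ two_ne_zero hc
  subst hu'
  have hc0 : c ≠ 0 := fun e => hy ((pow_eq_zero_iff (Nat.succ_ne_zero N)).1 (by
    rw [← h, e]; simp))
  have ht0 : t ≠ 0 := fun e => by
    rw [e, zero_pow (Nat.succ_ne_zero N)] at ht
    have ho2 : Odd ((a ^ (N + 1)) ^ 2 + ε * (2 ^ N * c ^ (N + 1)) ^ 2) :=
      hv.pow.add_even ((hu.pow_of_ne_zero two_ne_zero).mul_left ε)
    rw [ht] at ho2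
    simp at ho2
  have hac : IsCoprime (a ^ 2) (ε * c ^ 2) := by
    have : IsCoprime a c := (IsCoprime.pow_iff (Nat.succ_pos N) (Nat.succ_pos N)).1
      huv.symm.of_mul_right_right
    exact IsCoprime.mul_right (by rcases hε with rfl | rfl <;> simp [isCoprime_one_right,
      isCoprime_one_right.neg_right]) this.pow
  refine FA.Summary.ribetEquation_three_le h3 (α := 2 * N) (a := a ^ 2) (b := ε * c ^ 2) (c := -t)
    (mul_ne_zero (by rcases hε with rfl | rfl <;> norm_num) (pow_ne_zero _ hc0)) (neg_ne_zero.2 ht0)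
    ((Int.odd_pow' (Nat.succ_ne_zero N)).1 hv).pow hac ?_ ?_
  · exact (((show (16 : ℤ) = 2 ^ 4 by norm_num) ▸ pow_dvd_pow 2 (show 4 ≤ 2 * N by omega)).mul_right
      _)
  · have he : ε ^ (N + 1) = ε := by rcases hε with rfl | rfl <;> simp [ho.neg_one_pow]
    rw [ho.neg_pow, mul_pow, he]
    linear_combination ht

/-- **`x ^ (2 n) + y ^ (2 n)` is no square**, coprime integers. -/
theorem legs_ne_sq (hn : 2 ≤ n) {x y z : ℤ} (hx : x ≠ 0) (hy : y ≠ 0) (hxy : IsCoprime x y) :
    x ^ (2 * n) + y ^ (2 * n) ≠ z ^ 2 := fun h => by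
  rcases Nat.even_or_odd n with ⟨j, rfl⟩ | ho
  · exact not_fermat_42 (pow_ne_zero j hx) (pow_ne_zero j hy) (c := z) (by rw [← h]; ring)
  have h3 : 3 ≤ n := by have := Nat.odd_iff.1 ho; omega
  obtain ⟨m, k, hmk, -, hg, hpar⟩ := PythagoreanTriple.coprime_classification.1
    ⟨show PythagoreanTriple (x ^ n) (y ^ n) z by
      unfold PythagoreanTriple; linear_combination h, Int.isCoprime_iff_gcd_eq_one.1 hxy.pow⟩
  have hc : IsCoprime m k := Int.isCoprime_iff_gcd_eq_one.2 hg
  have key : ∀ {w t : ℤ}, w ≠ 0 → w ^ n = 2 * m * k → t ^ n ≠ m ^ 2 - k ^ 2 := by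
    intro w t hw h1 h2
    rcases hpar with ⟨hm, hk⟩ | ⟨hm, hk⟩
    · exact side_ne_pow ho h3 (Int.even_iff.2 hm) (Int.odd_iff.2 hk) hc hw h1.symm (Or.inr rfl)
        (-t) (by rw [ho.neg_pow, h2]; ring)
    · exact side_ne_pow ho h3 (Int.even_iff.2 hk) (Int.odd_iff.2 hm) hc.symm hw
        (by rw [h1]; ring) (Or.inr rfl) t (by rw [h2]; ring)
  rcases hmk with ⟨h1, h2⟩ | ⟨h1, h2⟩
  exacts [key hy h2 h1, key hx h1 h2]

/-- **`x ^ (2 n) - y ^ (2 n)` is no square** for coprime `x`, `y` with `y` even. -/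
theorem hypotenuse_ne_sq (hn : 2 ≤ n) {x y z : ℤ} (hy : y ≠ 0) (hye : Even y)
    (hxy : IsCoprime x y) : x ^ (2 * n) - y ^ (2 * n) ≠ z ^ 2 := fun h => by
  rcases Nat.even_or_odd n with ⟨j, rfl⟩ | ho
  · have hj : j ≠ 0 := by omega
    rcases FA.Torsion.quartic_sub_eq_sq (hxy.pow (m := j) (n := j)) (z := z)
      (by linear_combination h) with e | e
    · exact pow_ne_zero j hy e
    · subst e
      have he : Even (x ^ (2 * (j + j))) := by
        rw [show x ^ (2 * (j + j)) = y ^ (2 * (j + j)) by linear_combination h]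
        exact hye.pow_of_ne_zero (by omega)
      exact Int.prime_two.not_isUnit (hxy.isUnit_of_dvd'
        ((Int.even_pow' (show 2 * (j + j) ≠ 0 by omega)).1 he).two_dvd hye.two_dvd)
  have h3 : 3 ≤ n := by have := Nat.odd_iff.1 ho; omega
  have hcz : IsCoprime z (y ^ n) := by
    refine (IsCoprime.pow_left_iff two_pos).1 ?_
    rw [← h, show x ^ (2 * n) - y ^ (2 * n) = x ^ (2 * n) + y ^ n * (-y ^ n) by ring]
    exact hxy.pow.add_mul_left_left _
  obtain ⟨m, k, hmk, hz, hg, hpar⟩ := PythagoreanTriple.coprime_classification.1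
    ⟨show PythagoreanTriple z (y ^ n) (x ^ n) by
      unfold PythagoreanTriple; linear_combination -h, Int.isCoprime_iff_gcd_eq_one.1 hcz⟩
  have hc : IsCoprime m k := Int.isCoprime_iff_gcd_eq_one.2 hg
  rcases hmk with ⟨-, h2⟩ | ⟨-, h2⟩
  · have key : ∀ t : ℤ, t ^ n ≠ m ^ 2 + k ^ 2 := by
      intro t e
      rcases hpar with ⟨hm, hk⟩ | ⟨hm, hk⟩
      · exact side_ne_pow ho h3 (Int.even_iff.2 hm) (Int.odd_iff.2 hk) hc hy h2.symm (Or.inl rfl)
          t (by rw [e]; ring)
      · exact side_ne_pow ho h3 (Int.even_iff.2 hk) (Int.odd_iff.2 hm) hc.symm hy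
          (by rw [h2]; ring) (Or.inl rfl) t (by rw [e]; ring)
    rcases hz with e | e
    exacts [key x e, key (-x) (by rw [ho.neg_pow, e]; ring)]
  · refine Int.not_odd_iff_even.2 (h2 ▸ hye.pow_of_ne_zero ho.pos.ne') ?_
    rcases hpar with ⟨hm, hk⟩ | ⟨hm, hk⟩
    · exact ((Int.even_iff.2 hm).pow_of_ne_zero two_ne_zero).sub_odd (Int.odd_iff.2 hk).pow
    · exact (Int.odd_iff.2 hm).pow.sub_even ((Int.even_iff.2 hk).pow_of_ne_zero two_ne_zero)

/-- No right triangle with integer sides has a square area. -/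
theorem area_ne_sq {a b c Y : ℤ} (habc : a ^ 2 + b ^ 2 = c ^ 2) (hY : Y ≠ 0) :
    |a * b| ≠ 2 * Y ^ 2 := fun h => by
  have hab : a * b ≠ 0 := abs_ne_zero.1 (by rw [h]; positivity)
  have hc : c ≠ 0 := fun e => by
    have : 0 < a ^ 2 := by have := left_ne_zero_of_mul hab; positivity
    rw [e] at habc
    nlinarith [sq_nonneg b]
  refine FA.Summary.one_not_congruent ⟨|(a : ℚ)| / |(Y : ℚ)|, |(b : ℚ)| / |(Y : ℚ)|,
    |(c : ℚ)| / |(Y : ℚ)|, ?_, ?_, ?_, ?_, ?_⟩
  any_goals have := left_ne_zero_of_mul hab; have := right_ne_zero_of_mul hab; positivity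
  · rw [div_pow, div_pow, div_pow, sq_abs, sq_abs, sq_abs, sq_abs, ← add_div]
    congr 1
    exact_mod_cast habc
  · have h' : |(a : ℚ)| * |(b : ℚ)| = 2 * (Y : ℚ) ^ 2 := by
      rw [← abs_mul]; exact_mod_cast h
    field_simp
    rw [sq_abs]
    linear_combination h'

/-- **`m k (m² - k²)` is no `n`-th power**, coprime `m`, `k`, `n ≥ 2`, up to sign. -/
theorem area_ne_pow (hn : 2 ≤ n) {m k : ℤ} (hc : IsCoprime m k) (hy : y ≠ 0) {ε : ℤ}
    (hε : ε = 1 ∨ ε = -1) : m * k * (m ^ 2 - k ^ 2) ≠ ε * y ^ n := fun h => by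
  rcases Nat.even_or_odd n with ⟨j, rfl⟩ | ho
  · refine area_ne_sq (a := 2 * m * k) (b := m ^ 2 - k ^ 2) (c := m ^ 2 + k ^ 2) (by ring)
      (pow_ne_zero j hy) ?_
    rw [show 2 * m * k * (m ^ 2 - k ^ 2) = 2 * (ε * (y ^ j) ^ 2) by linear_combination 2 * h]
    rw [abs_mul, abs_mul, abs_of_nonneg (sq_nonneg (y ^ j))]
    rcases hε with rfl | rfl <;> norm_num
  have h3 : 3 ≤ n := by have := Nat.odd_iff.1 ho; omega
  have h' : m * k * (m ^ 2 - k ^ 2) = (ε * y) ^ n := by
    rw [h, mul_pow]; rcases hε with rfl | rfl <;> simp [ho.neg_one_pow]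
  obtain ⟨Y, hY0, hY⟩ : ∃ Y : ℤ, Y ≠ 0 ∧ m * k * (m ^ 2 - k ^ 2) = Y ^ n :=
    ⟨_, mul_ne_zero (by rcases hε with rfl | rfl <;> norm_num) hy, h'⟩
  have hne := pow_ne_zero n hY0
  rw [← hY] at hne
  have hm0 : m ≠ 0 := left_ne_zero_of_mul (left_ne_zero_of_mul hne)
  have hk0 : k ≠ 0 := right_ne_zero_of_mul (left_ne_zero_of_mul hne)
  have h2 := right_ne_zero_of_mul hne
  have hpk : IsCoprime (m + k) m := by
    rw [show m + k = k + m * 1 by ring]; exact hc.symm.add_mul_left_left _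
  have hmk : IsCoprime m (m ^ 2 - k ^ 2) := by
    rw [show m ^ 2 - k ^ 2 = -(k ^ 2) + m * m by ring]
    exact hc.pow_right.neg_right.add_mul_left_right _
  have hkm : IsCoprime k (m ^ 2 - k ^ 2) := by
    rw [show m ^ 2 - k ^ 2 = m ^ 2 + k * (-k) by ring]
    exact hc.symm.pow_right.add_mul_left_right _
  obtain ⟨a, ha⟩ := Int.eq_pow_of_mul_eq_pow_odd_left (hc.mul_right hmk) ho
    (c := Y) (by rw [← hY]; ring)
  obtain ⟨b, hb⟩ := Int.eq_pow_of_mul_eq_pow_odd_left (hc.symm.mul_right hkm) ho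
    (c := Y) (by rw [← hY]; ring)
  have ha0 : a ≠ 0 := fun e => hm0 (by rw [ha, e, zero_pow ho.pos.ne'])
  have hb0 : b ≠ 0 := fun e => hk0 (by rw [hb, e, zero_pow ho.pos.ne'])
  rcases Int.even_or_odd (m + k) with he | hodd
  · obtain ⟨p, hp⟩ := he.two_dvd
    obtain ⟨q, hq⟩ : ∃ q, m - k = 2 * q := ⟨m - p, by linarith⟩
    have hmo : Odd m := Int.not_even_iff_odd.1 fun e => Int.prime_two.not_isUnit
      (hc.isUnit_of_dvd' e.two_dvd ⟨p - (m / 2), by have := Int.ediv_mul_cancel e.two_dvd; omega⟩)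
    have hko : Odd k := by rw [Int.odd_iff] at hmo ⊢; omega
    -- one of `(m ± k) / 2` is even
    have key : ∀ (p q k b : ℤ), m + k = 2 * p → m - k = 2 * q → Even p → Odd k → IsCoprime m k →
        k = b ^ n → b ≠ 0 → (∃ Z : ℤ, Z ≠ 0 ∧ m * k * (m ^ 2 - k ^ 2) = Z ^ n) → False := by
      intro p q k b hp hq hpe hko hc hb hb0 ⟨Z, hZ0, hZ⟩
      have hpm : IsCoprime (2 * p) m := by
        rw [← hp, show m + k = k + m * 1 by ring]; exact hc.symm.add_mul_left_left _
      have hpk : IsCoprime (2 * p) k := by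
        rw [← hp, show m + k = m + k * 1 by ring]; exact hc.add_mul_left_left _
      have hpq : IsCoprime p q := by
        rw [show q = m + p * (-1) by linarith]
        exact hpm.of_mul_left_right.add_mul_left_right _
      have hqo : Odd q := by
        rw [show q = m - p by linarith]; exact hmo.sub_even hpe
      have h4 : ∀ {r : ℤ}, Odd r → IsCoprime p r → IsCoprime (4 * p) r := fun hr hpr => by
        rw [show (4 : ℤ) = 2 ^ 2 by norm_num]
        exact (coprime_two hr).symm.pow_left.mul_left hpr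
      obtain ⟨c, hc4⟩ := exists_two_mul_pow ho
        (((h4 hmo hpm.of_mul_left_right).mul_right (h4 hko hpk.of_mul_left_right)).mul_right
          (h4 hqo hpq)) ((show Even (4 : ℤ) by decide).mul_right p)
        (show 4 * p * (m * k * q) = Z ^ n by
          rw [← hZ, show m ^ 2 - k ^ 2 = (m + k) * (m - k) by ring, hp, hq]; ring)
      obtain ⟨N, rfl⟩ : ∃ N, n = N + 1 := ⟨n - 1, by omega⟩
      have hc0 : c ≠ 0 := fun e => by
        rw [e, zero_pow (Nat.succ_ne_zero N), mul_zero] at hc4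
        have : Z ^ (N + 1) = 0 := by
          rw [← hZ, show m ^ 2 - k ^ 2 = (m + k) * (m - k) by ring, hp,
            show p = 0 by omega]; ring
        exact pow_ne_zero _ hZ0 this
      refine sum_ne_two_pow_mul ho h3 (a := a) (b := b) (c := c) ?_ hb0 hc0 ?_
      · rw [ha, hb] at hc
        exact (IsCoprime.pow_iff (Nat.succ_pos N) (Nat.succ_pos N)).1 hc
      · rw [pow_succ' (2 : ℤ) N, mul_assoc] at hc4
        linarith
    rcases Int.even_or_odd p with hpe | hpo
    · exact key p q k b hp hq hpe hko hc hb hb0 ⟨Y, hY0, hY⟩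
    · exact key q p (-k) (-b) (by linarith) (by linarith)
        (by rw [show q = m - p by linarith]; exact hmo.sub_odd hpo) hko.neg hc.neg_right
        (by rw [ho.neg_pow, hb]) (neg_ne_zero.2 hb0)
        ⟨-Y, neg_ne_zero.2 hY0, by rw [ho.neg_pow, ← hY]; ring⟩
  · have hd : IsCoprime (m + k) (m - k) := by
      rw [show m - k = -(2 * k) + (m + k) * 1 by ring]
      refine (IsCoprime.mul_right (coprime_two hodd) ?_).neg_right.add_mul_left_right _
      rw [show m + k = m + k * 1 by ring]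
      exact hc.add_mul_left_left _
    have hpk' : IsCoprime (m + k) k := by
      rw [show m + k = m + k * 1 by ring]; exact hc.add_mul_left_left _
    obtain ⟨e, he⟩ := Int.eq_pow_of_mul_eq_pow_odd_left ((hpk.mul_right hpk').mul_right hd) ho
      (c := Y) (by rw [← hY]; ring)
    refine mul_ne_zero (mul_ne_zero ha0 hb0) ?_
      (FA.Summary.fermat_int_mul_eq_zero h3 (x := a) (y := b) (z := e) (by rw [← ha, ← hb, ← he]))
    intro e0
    apply h2
    rw [show m ^ 2 - k ^ 2 = (m + k) * (m - k) by ring, he, e0, zero_pow ho.pos.ne', zero_mul]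

/-- **`2 u v (u⁴ - v⁴)` is no `n`-th power**, `u` even, coprime `u`, `v`. -/
theorem product_ne_pow (hn : 2 ≤ n) (hu : Even u) (hv : Odd v) (hc : IsCoprime u v) (hy : y ≠ 0)
    {ε : ℤ} (hε : ε = 1 ∨ ε = -1) : 2 * u * v * (u ^ 4 - v ^ 4) ≠ ε * y ^ n := fun h => by
  have hε2 : ε * ε = 1 := by rcases hε with rfl | rfl <;> norm_num
  have hne : 2 * u * v * (u ^ 4 - v ^ 4) ≠ 0 := by
    rw [h]; exact mul_ne_zero (left_ne_zero_of_mul_eq_one hε2) (pow_ne_zero _ hy)
  have hu0 : u ≠ 0 := by rintro rfl; simp at hne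
  have hv0 : v ≠ 0 := by rintro rfl; simp at hne
  have hpo : Odd (u + v) := hu.add_odd hv
  rcases Nat.even_or_odd n with ⟨j, rfl⟩ | ho
  · have hW : IsCoprime (u ^ 4 - v ^ 4) (ε * (2 * u * v)) := by
      refine IsCoprime.mul_right ?_ (((coprime_two ?_).mul_right ?_).mul_right ?_)
      · rcases hε with rfl | rfl
        exacts [isCoprime_one_right, isCoprime_one_right.neg_right]
      · exact (hu.pow_of_ne_zero (by norm_num)).sub_odd hv.pow
      · rw [show u ^ 4 - v ^ 4 = -(v ^ 4) + u * u ^ 3 by ring]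
        exact hc.symm.pow_left.neg_left.add_mul_left_left _
      · rw [show u ^ 4 - v ^ 4 = u ^ 4 + v * (-v ^ 3) by ring]
        exact hc.pow_left.add_mul_left_left _
    obtain ⟨s, hs | hs⟩ := Int.sq_of_isCoprime hW (c := y ^ j)
      (by linear_combination ε * h + (y ^ j) ^ 2 * hε2)
    · rcases FA.Torsion.quartic_sub_eq_sq hc (z := s) (by linarith) with e | e
      · exact hv0 e
      · rw [e, zero_pow two_ne_zero] at hs
        exact hne (by rw [hs, mul_zero])
    · rcases FA.Torsion.quartic_sub_eq_sq hc.symm (z := s) (by linarith) with e | e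
      · exact hu0 e
      · rw [e, zero_pow two_ne_zero, neg_zero] at hs
        exact hne (by rw [hs, mul_zero])
  have h3 : 3 ≤ n := by have := Nat.odd_iff.1 ho; omega
  have h' : 2 * u * v * (u ^ 4 - v ^ 4) = (ε * y) ^ n := by
    rw [h, mul_pow]; rcases hε with rfl | rfl <;> simp [ho.neg_one_pow]
  have hv4 : IsCoprime v (u ^ 4 - v ^ 4) := by
    rw [show u ^ 4 - v ^ 4 = u ^ 4 + v * (-v ^ 3) by ring]
    exact hc.symm.pow_right.add_mul_left_right _
  have hu4 : IsCoprime u (u ^ 4 - v ^ 4) := by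
    rw [show u ^ 4 - v ^ 4 = -(v ^ 4) + u * u ^ 3 by ring]
    exact hc.pow_right.neg_right.add_mul_left_right _
  have h24 : IsCoprime (u ^ 4 - v ^ 4) 2 :=
    coprime_two ((hu.pow_of_ne_zero (by norm_num)).sub_odd hv.pow)
  have huu : IsCoprime (u + v) u := by
    rw [show u + v = v + u * 1 by ring]; exact hc.symm.add_mul_left_left _
  have huv : IsCoprime (u + v) v := by
    rw [show u + v = u + v * 1 by ring]; exact hc.add_mul_left_left _
  have hd : IsCoprime (u + v) (u - v) := by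
    rw [show u - v = -(2 * v) + (u + v) * 1 by ring]
    exact (IsCoprime.mul_right (coprime_two hpo) huv).neg_right.add_mul_left_right _
  have hs : IsCoprime (u + v) (u ^ 2 + v ^ 2) := by
    rw [show u ^ 2 + v ^ 2 = 2 * v ^ 2 + (u + v) * (u - v) by ring]
    exact (IsCoprime.mul_right (coprime_two hpo) huv.pow_right).add_mul_left_right _
  obtain ⟨b, hb⟩ := Int.eq_pow_of_mul_eq_pow_odd_left
    (((coprime_two hv).mul_right hc.symm).mul_right hv4) ho (c := ε * y) (by rw [← h']; ring)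
  obtain ⟨c, hc'⟩ := exists_two_mul_pow ho (((coprime_two hv).symm.mul_left hc).mul_right
    (h24.symm.mul_left hu4)) (even_two_mul u) (y := ε * y) (by rw [← h']; ring)
  obtain ⟨e, he⟩ := Int.eq_pow_of_mul_eq_pow_odd_left
    (((((coprime_two hpo).mul_right huu).mul_right huv).mul_right hd).mul_right hs) ho
    (c := ε * y) (by rw [← h']; ring)
  obtain ⟨N, rfl⟩ : ∃ N, n = N + 1 := ⟨n - 1, by omega⟩
  rw [pow_succ' (2 : ℤ) N, mul_assoc] at hc'
  have hu' := mul_left_cancel₀ two_ne_zero hc'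
  refine sum_ne_two_pow_mul ho h3 (a := e) (b := -b) (c := c) ?_ (neg_ne_zero.2 ?_) ?_ ?_
  · have := huv
    rw [he, hb, IsCoprime.pow_iff (Nat.succ_pos N) (Nat.succ_pos N)] at this
    exact this.neg_right
  · intro e0; exact hv0 (by rw [hb, e0, zero_pow (Nat.succ_ne_zero N)])
  · intro e0; exact hu0 (by rw [hu', e0, zero_pow (Nat.succ_ne_zero N), mul_zero])
  · rw [ho.neg_pow]
    linear_combination hu' - he + hb

end FA.RightTriangle

end
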